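import Fermat.Agent.NeronSpecialisation.GeneralSpec
import Fermat.Agent.EC.MulFormula
import Fermat.Agent.Frob.VarChange
import Mathlib.RingTheory.Algebraic.Basic
import Mathlib.FieldTheory.IsAlgClosed.AlgebraicClosure
import Mathlib.Data.Complex.Basic

/-!
# Twists with two independent points over `ℚ(w)`

For `f = x³ + A x + B` with `A B ≠ 0` and `x(w) = N / M`, `N = -B (w⁴ + w² + 1)`,
`M = A w² (w² + 1)`, one has `f (w² x) = w⁶ f (x)`. So the twist by `f (x (w))` has the points of
abscissae `x` and `w² x`; `w ↦ -w` fixes the first and negates the second, and neither is torsion,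
as torsion points of `y² = f (x)` have constant abscissae.
-/

set_option autoImplicit false
set_option linter.unusedSectionVars false
set_option linter.style.haveILetI false

noncomputable section

open WeierstrassCurve Polynomial
open FA.NeronSpecialisation (genW genW_isElliptic)
open FA.FunctionFieldRank (pointMap pointMap_some pointMap_injective)
open scoped Classical

namespace FA.TwistRankTwo

variable (A B : ℚ)

/-- The numerator of the abscissa. -/
def numX : ℚ[X] := C (-B) * (X ^ 4 + X ^ 2 + 1)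

/-- Its denominator. -/
def denX : ℚ[X] := C A * X ^ 2 * (X ^ 2 + 1)

/-- `M³ f (N / M)`. -/
def valPoly : ℚ[X] :=
  numX B ^ 3 + C A * numX B * denX A ^ 2 + C B * denX A ^ 3

/-- The twisting polynomial, `M⁴ f (N / M)`. -/
def twistPoly : ℚ[X] := valPoly A B * denX A

/-- The twist, over `ℚ[w]`. -/
def twistW : WeierstrassCurve ℚ[X] :=
  ⟨0, 0, 0, C A * twistPoly A B ^ 2, C B * twistPoly A B ^ 3⟩

/-- The first abscissa. -/
def absP : ℚ[X] := valPoly A B * numX B

/-- The second abscissa. -/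
def absQ : ℚ[X] := X ^ 2 * absP A B

/-- `f (w² x) = w⁶ f (x)`. -/
theorem scaled_identity : (X : ℚ[X]) ^ 6 * valPoly A B =
    (X ^ 2 * numX B) ^ 3 + C A * (X ^ 2 * numX B) * denX A ^ 2 + C B * denX A ^ 3 := by
  simp only [valPoly, numX, denX, map_neg]
  ring

theorem equation_P : (twistW A B).toAffine.Equation (absP A B) (valPoly A B ^ 2) := by
  rw [Affine.equation_iff]
  simp only [twistW, absP, twistPoly, valPoly, zero_mul, add_zero]
  ring

theorem equation_Q : (twistW A B).toAffine.Equation (absQ A B) (X ^ 3 * valPoly A B ^ 2) := by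
  rw [Affine.equation_iff]
  simp only [twistW, absQ, absP, twistPoly, zero_mul, add_zero]
  linear_combination valPoly A B ^ 3 * scaled_identity A B

variable {A B}

theorem valPoly_eval_zero : (valPoly A B).eval 0 = -B ^ 3 := by
  simp [valPoly, numX, denX]; ring

theorem valPoly_ne_zero (hB : B ≠ 0) : valPoly A B ≠ 0 := fun h => by
  have := valPoly_eval_zero (A := A) (B := B)
  rw [h, eval_zero, eq_comm, neg_eq_zero] at this
  exact hB ((pow_eq_zero_iff three_ne_zero).1 this)

theorem denX_ne_zero (hA : A ≠ 0) : denX A ≠ 0 := fun h => by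
  simpa [denX, hA] using congrArg (eval (1 : ℚ)) h

theorem twistPoly_ne_zero (hA : A ≠ 0) (hB : B ≠ 0) : twistPoly A B ≠ 0 :=
  mul_ne_zero (valPoly_ne_zero hB) (denX_ne_zero hA)

theorem twistW_Δ : (twistW A B).Δ =
    C (-16 * (4 * A ^ 3 + 27 * B ^ 2)) * twistPoly A B ^ 6 := by
  simp only [twistW, WeierstrassCurve.Δ, WeierstrassCurve.b₂, WeierstrassCurve.b₄,
    WeierstrassCurve.b₆, WeierstrassCurve.b₈, map_mul, map_neg, map_add, map_pow, map_ofNat]
  ring

theorem twistW_Δ_ne (hA : A ≠ 0) (hB : B ≠ 0) (hd : 4 * A ^ 3 + 27 * B ^ 2 ≠ 0) :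
    (twistW A B).Δ ≠ 0 := by
  rw [twistW_Δ]
  exact mul_ne_zero (C_ne_zero.2 (mul_ne_zero (by norm_num) hd))
    (pow_ne_zero _ (twistPoly_ne_zero hA hB))

/-- A non-constant rational function is transcendental over the constants. -/
theorem not_isAlgebraic_div {p q : ℚ[X]} (hq : q ≠ 0) (h : ∀ c : ℚ, p ≠ C c * q) :
    ¬IsAlgebraic ℚ (algebraMap ℚ[X] (RatFunc ℚ) p / algebraMap ℚ[X] (RatFunc ℚ) q) := by
  set z := algebraMap ℚ[X] (RatFunc ℚ) p / algebraMap ℚ[X] (RatFunc ℚ) q
  intro halg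
  have hint : IsIntegral ℚ z := halg.isIntegral
  obtain ⟨r, hr⟩ := IsIntegrallyClosed.isIntegral_iff.1 (hint.tower_top : IsIntegral ℚ[X] z)
  have hint' : IsIntegral ℚ r := (isIntegral_algebraMap_iff (RatFunc.algebraMap_injective ℚ)).1
    (show IsIntegral ℚ (algebraMap ℚ[X] (RatFunc ℚ) r) by rw [hr]; exact hint)
  by_cases hdeg : r.natDegree = 0
  · obtain ⟨c, rfl⟩ := natDegree_eq_zero.1 hdeg
    refine h c (RatFunc.algebraMap_injective ℚ ?_)
    rw [map_mul, hr, div_mul_cancel₀ _ (RatFunc.algebraMap_ne_zero hq)]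
  · obtain ⟨P, hP, hPr⟩ := hint'
    rw [← aeval_def, ← comp_eq_aeval] at hPr
    have e := congrArg natDegree hPr
    rw [natDegree_comp, natDegree_zero] at e
    have : P.natDegree = 0 := (mul_eq_zero.1 e).resolve_right hdeg
    obtain rfl := hP.natDegree_eq_zero.1 this
    simp at hPr

/-- **A point of a twist with abscissa transcendental over the constants has infinite order.** -/
theorem not_isOfFinAddOrder_twist {K : Type*} [Field K] (κ : ℚ →+* K) {A B : ℚ}
    {δ : K} (hδ : δ ≠ 0) (hd : 4 * A ^ 3 + 27 * B ^ 2 ≠ 0) {E : WeierstrassCurve K}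
    (hE : E = ⟨0, 0, 0, κ A * δ ^ 2, κ B * δ ^ 3⟩) {p q y : K} (hpq : p = δ * q)
    (hq : ∀ P : ℚ[X], P.eval₂ κ q = 0 → P = 0) (h : E.toAffine.Nonsingular p y) :
    ¬IsOfFinAddOrder (Affine.Point.some p y h) := fun hfin => by
  obtain ⟨k, hk, hkP⟩ := isOfFinAddOrder_iff_nsmul_eq_zero.1 hfin
  let φ := algebraMap K (AlgebraicClosure K)
  obtain ⟨s, hs⟩ := IsAlgClosed.exists_pow_nat_eq (φ δ) (n := 2) two_pos
  have hs0 : s ≠ 0 := fun e => hδ (φ.injective (by rw [← hs, e, map_zero]; simp))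
  let ψ : ℚ →+* AlgebraicClosure K := φ.comp κ
  let E₀ : WeierstrassCurve ℚ := ⟨0, 0, 0, A, B⟩
  have hd' : IsUnit E₀.Δ := isUnit_iff_ne_zero.2 (by
    rw [show E₀.Δ = -16 * (4 * A ^ 3 + 27 * B ^ 2) by
      simp only [E₀, WeierstrassCurve.Δ, WeierstrassCurve.b₂, WeierstrassCurve.b₄,
        WeierstrassCurve.b₆, WeierstrassCurve.b₈]
      ring]
    exact mul_ne_zero (by norm_num) hd)
  haveI : E₀.IsElliptic := ⟨hd'⟩
  haveI : E.IsElliptic := ⟨by
    rw [show E.Δ = κ (-16 * (4 * A ^ 3 + 27 * B ^ 2)) * δ ^ 6 by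
      simp only [hE, WeierstrassCurve.Δ, WeierstrassCurve.b₂, WeierstrassCurve.b₄,
        WeierstrassCurve.b₆, WeierstrassCurve.b₈, map_mul, map_neg, map_add, map_pow, map_ofNat]
      ring]
    exact isUnit_iff_ne_zero.2 (mul_ne_zero
      ((map_ne_zero κ).2 (mul_ne_zero (by norm_num) hd)) (pow_ne_zero _ hδ))⟩
  let V : VariableChange (AlgebraicClosure K) := ⟨Units.mk0 s hs0, 0, 0, 0⟩
  have hV : V • E.map φ = E₀.map ψ := by
    ext <;> simp only [hE, E₀, V, ψ, RingHom.comp_apply, variableChange_a₁, variableChange_a₂,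
      variableChange_a₃, variableChange_a₄, variableChange_a₆, WeierstrassCurve.map, map_zero,
      map_mul, map_pow, Units.val_inv_eq_inv_val, Units.val_mk0, ← hs]
    all_goals field_simp
    all_goals ring
  have hk0 : k • (FA.Frob.vcEquiv V hV).symm (pointMap φ rfl (.some p y h)) = 0 := by
    rw [← map_nsmul, ← map_nsmul, hkP, map_zero, map_zero]
  have hP' : (FA.Frob.vcEquiv V hV).symm (pointMap φ rfl (.some p y h)) ≠ 0 := fun e => by
    rw [AddEquiv.map_eq_zero_iff] at e
    exact Affine.Point.some_ne_zero _ e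
  obtain ⟨x', y', h', e⟩ := FA.EC.exists_some_of_ne_zero hP'
  have hx' : x' = φ q := by
    have e' := (congrArg (FA.Frob.vcEquiv V hV) e).symm
    rw [AddEquiv.apply_symm_apply, FA.Frob.vcEquiv_some, pointMap_some,
      Affine.Point.some.injEq] at e'
    have e'' := e'.1
    simp only [FA.Frob.vcX, V, Units.val_mk0, add_zero, hs, hpq, map_mul] at e''
    exact mul_left_cancel₀ ((map_ne_zero φ).2 hδ) e''
  rw [e] at hk0
  have hev := (FA.EC.nsmul_eq_zero_iff h' k).1 hk0
  rw [WeierstrassCurve.map_ΨSq, hx', eval_map, ← hom_eval₂, map_eq_zero] at hev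
  exact E₀.ΨSq_ne_zero (by exact_mod_cast hk.ne') (hq _ hev)

/-- **A point of the twist with non-constant abscissa has infinite order.** -/
theorem not_isOfFinAddOrder {A B : ℚ} {D : ℚ[X]} (hD : D ≠ 0)
    (hd : 4 * A ^ 3 + 27 * B ^ 2 ≠ 0) {p q y : RatFunc ℚ}
    (hpq : p = algebraMap ℚ[X] (RatFunc ℚ) D * q) (hq : ¬IsAlgebraic ℚ q)
    {E : WeierstrassCurve ℚ[X]} (hE : E = ⟨0, 0, 0, C A * D ^ 2, C B * D ^ 3⟩)
    (h : (genW E).toAffine.Nonsingular p y) :
    ¬IsOfFinAddOrder (Affine.Point.some p y h) :=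
  not_isOfFinAddOrder_twist ((algebraMap ℚ[X] (RatFunc ℚ)).comp C)
    (RatFunc.algebraMap_ne_zero hD) hd
    (by subst hE; ext <;> simp [genW, WeierstrassCurve.map]) hpq
    (fun P hP => by_contra fun h0 => hq ⟨P, h0, by
      rwa [aeval_def, Subsingleton.elim (algebraMap ℚ (RatFunc ℚ))
        ((algebraMap ℚ[X] (RatFunc ℚ)).comp C)]⟩) h

/-- `w ↦ -w`. -/
def negVar : ℚ[X] →+* ℚ[X] := (aeval (-X : ℚ[X])).toRingHom

theorem negVar_injective : Function.Injective negVar := fun p q h => by
  have key : ∀ r : ℚ[X], negVar (negVar r) = r := fun r => by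
    simp only [negVar, AlgHom.toRingHom_eq_coe, RingHom.coe_coe]
    rw [← comp_eq_aeval, ← comp_eq_aeval, comp_assoc, neg_comp, X_comp, neg_neg, comp_X]
  rw [← key p, h, key]

/-- `w ↦ -w` on rational functions. -/
def negVarFrac : RatFunc ℚ →+* RatFunc ℚ :=
  RatFunc.mapRingHom negVar (nonZeroDivisors_le_comap_nonZeroDivisors_of_injective _ negVar_injective)

theorem negVarFrac_algebraMap (p : ℚ[X]) :
    negVarFrac (algebraMap ℚ[X] (RatFunc ℚ) p) = algebraMap ℚ[X] (RatFunc ℚ) (negVar p) := by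
  simp [negVarFrac, RatFunc.coe_mapRingHom_eq_coe_map, RatFunc.map_apply]

theorem negVar_fixes (A B : ℚ) : negVar (numX B) = numX B ∧ negVar (denX A) = denX A ∧
    negVar (valPoly A B) = valPoly A B ∧ negVar (X : ℚ[X]) = -X := by
  refine ⟨?_, ?_, ?_, ?_⟩ <;>
    simp [negVar, numX, denX, valPoly, Even.neg_pow (n := 2) even_two,
      Even.neg_pow (n := 4) (by decide)]

theorem negVarFrac_X : negVarFrac RatFunc.X = -RatFunc.X := by
  rw [← RatFunc.algebraMap_X, negVarFrac_algebraMap, ← map_neg]; simp [negVar]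

/-- **Two independent points over `ℚ(w)`.** -/
theorem exists_independent (hA : A ≠ 0) (hB : B ≠ 0) (hd : 4 * A ^ 3 + 27 * B ^ 2 ≠ 0) :
    ∃ P : Fin 2 → (genW (twistW A B)).toAffine.Point, LinearIndependent ℤ P := by
  haveI := genW_isElliptic (twistW_Δ_ne hA hB hd)
  set a := algebraMap ℚ[X] (RatFunc ℚ)
  have hP : (genW (twistW A B)).toAffine.Nonsingular (a (absP A B)) (a (valPoly A B ^ 2)) :=
    Affine.equation_iff_nonsingular.mp ((equation_P A B).map a)
  have hQ : (genW (twistW A B)).toAffine.Nonsingular (a (absQ A B)) (a (X ^ 3 * valPoly A B ^ 2)) :=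
    Affine.equation_iff_nonsingular.mp ((equation_Q A B).map a)
  obtain ⟨hn, hm, hv, hX⟩ := negVar_fixes A B
  have hσ : (genW (twistW A B)).map negVarFrac = genW (twistW A B) := by
    ext <;> simp only [genW, twistW, WeierstrassCurve.map, negVarFrac_algebraMap, map_zero, map_mul,
      map_pow, twistPoly, hv, hm]
    all_goals simp [negVar]
  set σ := pointMap negVarFrac hσ
  set P : (genW (twistW A B)).toAffine.Point := .some _ _ hP
  set Q : (genW (twistW A B)).toAffine.Point := .some _ _ hQ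
  have hσP : σ P = P := by
    simp only [σ, P, pointMap_some, Affine.Point.some.injEq]
    simp [a, negVarFrac_algebraMap, absP, hn, hv]
  have hσQ : σ Q = -Q := by
    simp only [σ, Q, pointMap_some, Affine.Point.neg_some, Affine.Point.some.injEq]
    constructor
    · simp [a, negVarFrac_algebraMap, negVarFrac_X, absQ, absP, hn, hv]
    · simp [a, negVarFrac_algebraMap, negVarFrac_X, hv, Affine.negY, genW, twistW,
        Odd.neg_pow (n := 3) (by decide)]
  have hD := twistPoly_ne_zero hA hB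
  have hM := denX_ne_zero hA
  have htP : ¬IsOfFinAddOrder P := not_isOfFinAddOrder hD hd
    (q := a (numX B) / a (denX A))
    (by simp only [a, twistPoly, absP, map_mul]; field_simp [RatFunc.algebraMap_ne_zero hM])
    (not_isAlgebraic_div hM fun c e => hB (by
      simpa [numX, denX] using congrArg (eval (0 : ℚ)) e)) rfl hP
  have htQ : ¬IsOfFinAddOrder Q := not_isOfFinAddOrder hD hd
    (q := a (X ^ 2 * numX B) / a (denX A))
    (by simp only [a, twistPoly, absQ, absP, map_mul];
        field_simp [RatFunc.algebraMap_ne_zero hM])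
    (not_isAlgebraic_div hM fun c e => by
      have h1 := congrArg (eval (1 : ℚ)) e
      have h2 := congrArg (eval (2 : ℚ)) e
      simp [numX, denX] at h1 h2
      exact hB (by linarith)) rfl hQ
  have hzero : ∀ {R : (genW (twistW A B)).toAffine.Point}, ¬IsOfFinAddOrder R →
      ∀ m : ℤ, (2 * m) • R = 0 → m = 0 := fun hR m hm => by
    by_contra h0
    exact hR (isOfFinAddOrder_iff_zsmul_eq_zero.2 ⟨2 * m, mul_ne_zero two_ne_zero h0, hm⟩)
  refine ⟨![P, Q], LinearIndependent.pair_iff.2 fun m n h => ?_⟩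
  have h' := congrArg σ h
  rw [map_add, map_zsmul, map_zsmul, hσP, hσQ, map_zero, zsmul_neg] at h'
  refine ⟨hzero htP m ?_, hzero htQ n ?_⟩
  · calc (2 * m) • P = (m • P + n • Q) + (m • P + -(n • Q)) := by rw [two_mul, add_zsmul]; abel
      _ = 0 := by rw [h, h', add_zero]
  · calc (2 * n) • Q = (m • P + n • Q) - (m • P + -(n • Q)) := by rw [two_mul, add_zsmul]; abel
      _ = 0 := by rw [h, h', sub_zero]

/-- **The twisting polynomial is no constant times a square.** -/
theorem not_isSquare_const_mul (hA : A ≠ 0) (hB : B ≠ 0) {d : ℚ} (hd : d ≠ 0) :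
    ¬IsSquare (C d * twistPoly A B) := by
  rintro ⟨q, hq⟩
  set ev : ℚ[X] →ₐ[ℚ] ℂ := aeval Complex.I
  have hI : Complex.I ^ 2 = -1 := Complex.I_sq
  have hI4 : Complex.I ^ 4 = 1 := by rw [show 4 = 2 * 2 from rfl, pow_mul, hI]; norm_num
  have hm : ev (denX A) = 0 := by simp [ev, denX, hI]
  have hn : ev (numX B) = -(B : ℂ) := by simp [ev, numX, hI, hI4]
  have hm' : ev (derivative (denX A)) = -2 * (A : ℂ) * Complex.I := by
    simp [ev, denX, derivative_mul, derivative_pow, hI]
    ring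
  have hv : ev (valPoly A B) = -(B : ℂ) ^ 3 := by
    simp only [valPoly, map_add, map_mul, map_pow, hm, hn]; ring
  have h0 := congrArg ev hq
  rw [map_mul, map_mul, twistPoly, map_mul, hm, mul_zero, mul_zero, eq_comm, mul_self_eq_zero] at h0
  have h1 := congrArg (fun p => ev (derivative p)) hq
  simp only [twistPoly, derivative_mul, derivative_C, zero_mul, zero_add, map_add, map_mul, hm, h0,
    mul_zero, zero_mul, hm', hv, add_zero] at h1
  have hne : ev (C d) * (-(B : ℂ) ^ 3 * (-2 * (A : ℂ) * Complex.I)) ≠ 0 := by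
    simp [ev, hd, hA, hB, Complex.I_ne_zero]
  exact hne h1

end FA.TwistRankTwo
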