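import Fermat.Agent.TwistRankTwo.Family
import Fermat.Agent.NeronSpecialisation.General
import Fermat.Agent.Twists.KroneckerChar
import Fermat.Agent.Twists.Main

/-!
# Infinitely many quadratic twists of rank at least two

The fibres at integers `t` of the family over `ℚ(w)` are quadratic twists by the squarefree part
of the twisting polynomial at `t`. Specialisation is injective outside a set of density zero, and a
fixed squarefree part occurs only on a set of density zero.
-/

set_option autoImplicit false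
set_option linter.style.haveILetI false

noncomputable section

open WeierstrassCurve Polynomial
open Fermat.Agent.Hilbertian
open FA.NeronSpecialisation (genW fibreW specW genW_isElliptic finite_singular_fibres
  densityZero_specW_not_injective)
open scoped Classical

namespace FA.TwistRankTwo

attribute [local instance 2000] FA.NeronSpecialisation.ratDecEq

variable {A B : ℚ}

theorem fibreW_twistW (t : ℚ) : fibreW (twistW A B) t =
    ⟨0, 0, 0, A * (twistPoly A B).eval t ^ 2, B * (twistPoly A B).eval t ^ 3⟩ := by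
  ext <;> simp [fibreW, twistW, WeierstrassCurve.map]

/-- A fixed square class occurs only on a set of density zero. -/
theorem densityZero_squareClass (hA : A ≠ 0) (hB : B ≠ 0) {d : ℤ} (hd : d ≠ 0) :
    DensityZero {t : ℤ | IsSquare ((C (d : ℚ) * twistPoly A B).eval (t : ℚ))} :=
  by_contra fun h =>
    not_isSquare_const_mul hA hB (Int.cast_ne_zero.2 hd) (isSquare_of_square_values h)

/-- Where specialisation is injective, the twist by the squarefree part of the value of the
twisting polynomial has two independent points. -/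
theorem exists_twist (hA : A ≠ 0) (hB : B ≠ 0) (hd : 4 * A ^ 3 + 27 * B ^ 2 ≠ 0) {t : ℚ}
    (ht : (fibreW (twistW A B) t).Δ ≠ 0) (hs : Function.Injective (specW (twistW A B) ht)) :
    ∃ d : ℤ, (Squarefree d ∧
      ∃ P : Fin 2 → (⟨0, 0, 0, A * (d : ℚ) ^ 2, B * (d : ℚ) ^ 3⟩ :
        WeierstrassCurve ℚ).toAffine.Point, LinearIndependent ℤ P) ∧
      IsSquare ((C (d : ℚ) * twistPoly A B).eval t) := by
  obtain ⟨P, hP⟩ := exists_independent hA hB hd
  haveI := genW_isElliptic (twistW_Δ_ne hA hB hd)
  haveI := FA.NeronSpecialisation.fibreW_isElliptic ht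
  have hD : (twistPoly A B).eval t ≠ 0 := fun h => ht (by
    rw [fibreW_twistW, h]
    simp [WeierstrassCurve.Δ, WeierstrassCurve.b₂, WeierstrassCurve.b₄, WeierstrassCurve.b₆,
      WeierstrassCurve.b₈])
  obtain ⟨d, q, hsq, hq, hDq⟩ := FA.Twists.exists_squarefree_mul_sq hD
  have hV : (⟨Units.mk0 q hq, 0, 0, 0⟩ : VariableChange ℚ) • fibreW (twistW A B) t =
      ⟨0, 0, 0, A * (d : ℚ) ^ 2, B * (d : ℚ) ^ 3⟩ := by
    rw [fibreW_twistW, hDq]
    ext <;> simp only [variableChange_a₁, variableChange_a₂, variableChange_a₃, variableChange_a₄,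
      variableChange_a₆, Units.val_inv_eq_inv_val, Units.val_mk0]
    all_goals field_simp
    all_goals ring
  haveI : (⟨0, 0, 0, A * (d : ℚ) ^ 2, B * (d : ℚ) ^ 3⟩ : WeierstrassCurve ℚ).IsElliptic :=
    hV ▸ inferInstance
  refine ⟨d, ⟨hsq, fun i => (FA.Frob.vcEquiv _ hV).symm (specW (twistW A B) ht (P i)), ?_⟩, ?_⟩
  · exact (hP.map' (specW (twistW A B) ht).toIntLinearMap (LinearMap.ker_eq_bot.2 hs)).map'
      (FA.Frob.vcEquiv _ hV).symm.toAddMonoidHom.toIntLinearMap
      (LinearMap.ker_eq_bot.2 (FA.Frob.vcEquiv _ hV).symm.injective)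
  · exact ⟨q * d, by rw [eval_mul, eval_C, hDq]; ring⟩

/-- **Infinitely many twists of `y² = x³ + A x + B`, `A B ≠ 0`, have two independent points.** -/
theorem infinite_twists (hA : A ≠ 0) (hB : B ≠ 0) (hd : 4 * A ^ 3 + 27 * B ^ 2 ≠ 0) :
    {d : ℤ | Squarefree d ∧ ∃ P : Fin 2 → (⟨0, 0, 0, A * (d : ℚ) ^ 2, B * (d : ℚ) ^ 3⟩ :
      WeierstrassCurve ℚ).toAffine.Point, LinearIndependent ℤ P}.Infinite := fun hfin => by
  have hW := twistW_Δ_ne hA hB hd
  have hsq : DensityZero (⋃ d ∈ hfin.toFinset,
      {t : ℤ | IsSquare ((C (d : ℚ) * twistPoly A B).eval (t : ℚ))}) :=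
    densityZero_biUnion _ fun d hd' =>
      densityZero_squareClass hA hB ((hfin.mem_toFinset.1 hd').1.ne_zero)
  have hall : DensityZero (Set.univ : Set ℤ) := by
    refine (((densityZero_specW_not_injective hW).union
      (densityZero_of_finite (finite_singular_fibres hW))).union hsq).mono fun t _ => ?_
    by_cases h : (fibreW (twistW A B) (t : ℚ)).Δ = 0
    · exact Or.inl (Or.inr h)
    by_cases hs : Function.Injective (specW (twistW A B) h)
    · obtain ⟨d, hd', hsquare⟩ := exists_twist hA hB hd h hs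
      exact Or.inr (Set.mem_biUnion (hfin.mem_toFinset.2 hd') hsquare)
    · exact Or.inl (Or.inl ⟨h, hs⟩)
  obtain ⟨n, hn⟩ := hall.infinite_nat.nonempty
  exact hn trivial

/-- **Every elliptic curve over `ℚ` with invariant not `0` or `1728` has infinitely many quadratic
twists with two independent points.** -/
theorem infinite_quadTwists (E : WeierstrassCurve ℚ) [E.IsElliptic] (h0 : E.j ≠ 0)
    (h1728 : E.j ≠ 1728) :
    {d : ℤ | Squarefree d ∧ ∃ P : Fin 2 → (FA.Twists.quadTwist E d).toAffine.Point,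
      LinearIndependent ℤ P}.Infinite := by
  have h4 : E.c₄ ≠ 0 := fun h => h0 (E.j_eq_zero h)
  have hΔ := E.isUnit_Δ.ne_zero
  have hc := E.c_relation
  have h6 : E.c₆ ≠ 0 := fun h => h1728 (by
    rw [WeierstrassCurve.j, Units.val_inv_eq_inv_val, WeierstrassCurve.coe_Δ', inv_mul_eq_iff_eq_mul₀ hΔ]
    rw [h] at hc
    linear_combination -hc)
  have key : ∀ d : ℤ, FA.Twists.quadTwist E d =
      ⟨0, 0, 0, -27 * E.c₄ * (d : ℚ) ^ 2, -54 * E.c₆ * (d : ℚ) ^ 3⟩ := fun d => by
    ext <;> simp [FA.Twists.quadTwist, FA.Twists.short] <;> ring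
  refine (infinite_twists (A := -27 * E.c₄) (B := -54 * E.c₆) (mul_ne_zero (by norm_num) h4)
    (mul_ne_zero (by norm_num) h6) fun h => hΔ (by
      linear_combination (-1 / (78732 * 1728)) * h + (1 / 1728) * hc)).mono fun d hd => ?_
  refine ⟨hd.1, ?_⟩
  rw [key]
  exact hd.2

end FA.TwistRankTwo
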